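import Fermat.Agent.LT.T7.P51.ProdMtSpec
import Fermat.Agent.LT.T7.H409.RegOrb
import Fermat.Agent.LT.T7.H841.OntoFin

/-!
# Row LT, tower T7, leaf T7.L2.1.H2b.L5 `P51.SplitOrbC51` (helper321, registry row 2831): PROVED

OFF-MAIN.  No hole, nothing assumed.  ADDITIVE: all names are new and end in `321`.

    splitOrbC321 (K K') : P51.SplitOrbC51 K K'

VERBATIM against `LT/T7/P51/ProdMtSpec.lean` (helper51, sha256 4b4a6c6c).  Kits (byte copies):
`T7/H409/RegOrb.lean` (helper409: the local Iwahori calculus, completeness of a coset system),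
`T7/H468/{IwLocal,IwPerm}.lean` (helper468), `T7/H841/OntoFin.lean` (helper841: `e = f = 1` at a
place with two places over it), `T6/H116/InstSplit.lean` (helper116: `T6.InstSplitC`).

## Proof

* `t = N ^ (ℓ - 1)`, `N = [I : U(m_u)]` = the cardinal of a system `Rep` of representatives of
  `I / U(m_u)` in `GL₂(K_u)` (`exists_iwReps321`: the Iwahori function has finite support
  modulo `U(n)`).
* Enumeration `w j = o (j (ℓ - 1))`: `o (j + ℓ) = o j` (`σ ^ ℓ = 1`), hence
  `σ (w (j + 1)) = w j`, and `w j = o (ℓ - j)` for `0 < j < ℓ`.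
* Identifications: two places over `u`, so `e = f = 1` at every place over `u`
  (`H841.split_dataOF841`) and `T6.InstSplitC` (closed) gives `i j : K_u ≃ K'_{w j}`,
  compatible with the embeddings, preserving the valuations.
* Levels: `n (w j) = m u` (`level_eq321`: the ideal `𝔫 𝒪_{K'}` is generated by `𝔫`).
* Transport (`regLoc_map321`): under a valuation preserving isomorphism `K_u ≃ K'_w` the
  Iwahori subgroups correspond, the images of a coset system at `u` are matched with the
  members of a coset system at `w` modulo `I` (completeness), the sums of the translates of a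
  left `I`-invariant function agree, and the quotient of the two scalar uniformisers is a
  central element of `I`.  So `regLoc51 (o 0) z' H' k j 1_I ∘ i 0 = regLoc51 u z H k j 1_I`.
* Convolution (`isConv_iw321`): for `χ` right `I`-invariant,
  `∑_{h ∈ g Rep} χ(h) 1_I(h⁻¹ g) = N χ(g)`.
-/

set_option autoImplicit false
set_option linter.unusedSectionVars false
set_option linter.unusedVariables false
set_option linter.style.haveILetI false

open AutomorphicForm IsDedekindDomain NumberField MeasureTheory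
open scoped ComplexConjugate

noncomputable section

namespace Fermat.Agent.LT.T7.P51.H321

open Fermat.Agent.LT.H556 Fermat.Agent.LT.H556.A0 Fermat.Agent.LT.T7
open Fermat.Agent.LT.T7.H305 Fermat.Agent.LT.T7.H893 Fermat.Agent.LT.T7.P51
open Fermat.Agent.LT.T7.H468 Fermat.Agent.LT.T7.H409

/-! ## 1. Representatives modulo a subgroup -/

section Abstract

variable {Γ : Type} [Group Γ]

/-- A finite set contains a system of representatives of its classes modulo `U` on the right. -/
theorem exists_reps321 (U : Γ → Prop) (hU1 : U 1) (hUi : ∀ a, U a → U a⁻¹) (F : Finset Γ) :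
    ∃ R : Finset Γ, R ⊆ F ∧
      (∀ h ∈ R, ∀ h' ∈ R, (∃ u : Γ, U u ∧ h' = h * u) → h = h') ∧
      ∀ x ∈ F, ∃ h ∈ R, ∃ u : Γ, U u ∧ x = h * u := by
  classical
  induction F using Finset.induction_on with
  | empty => exact ⟨∅, Finset.Subset.refl _, by simp, by simp⟩
  | insert a F ha ih =>
    obtain ⟨R, hRF, hd, hc⟩ := ih
    by_cases hex : ∃ h ∈ R, ∃ u : Γ, U u ∧ a = h * u
    · refine ⟨R, hRF.trans (Finset.subset_insert a F), hd, fun x hx => ?_⟩
      rcases Finset.mem_insert.mp hx with hxa | hx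
      · rw [hxa]; exact hex
      · exact hc x hx
    · refine ⟨insert a R, Finset.insert_subset_insert a hRF, ?_, fun x hx => ?_⟩
      · intro h hh h' hh' huu
        rcases Finset.mem_insert.mp hh with hha | hh
        · rcases Finset.mem_insert.mp hh' with hha' | hh'
          · rw [hha, hha']
          · exfalso
            obtain ⟨u, hu, e⟩ := huu
            refine hex ⟨h', hh', u⁻¹, hUi u hu, ?_⟩
            rw [e, ← hha, mul_inv_cancel_right]
        · rcases Finset.mem_insert.mp hh' with hha' | hh'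
          · exfalso
            obtain ⟨u, hu, e⟩ := huu
            exact hex ⟨h, hh, u, hu, by rw [← hha', e]⟩
          · exact hd h hh h' hh' huu
      · rcases Finset.mem_insert.mp hx with hxa | hx
        · exact ⟨a, Finset.mem_insert_self _ _, 1, hU1, by rw [hxa, mul_one]⟩
        · obtain ⟨h, hh, u, hu, e⟩ := hc x hx
          exact ⟨h, Finset.mem_insert_of_mem hh, u, hu, e⟩

end Abstract

/-! ## 2. The groups `U(n)` -/

section LocalGroup

variable {k : Type} [Field k] [Valued k T6.Γ₀]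

theorem inU_one321 (n : ℕ) : T6.InU n (1 : GL (Fin 2) k) := by
  intro i j
  constructor
  · simp
  · simp

theorem inU_inv321 {n : ℕ} {g : GL (Fin 2) k} (h : T6.InU n g) : T6.InU n g⁻¹ := by
  intro i j
  refine ⟨(h i j).2, ?_⟩
  rw [inv_inv]
  exact (h i j).1

theorem inU_mul321 {n : ℕ} {a b : GL (Fin 2) k} (ha : T6.InU n a) (hb : T6.InU n b) :
    T6.InU n (a * b) := by
  have key : ∀ (A B : Matrix (Fin 2) (Fin 2) k),
      (∀ i j, Valued.v (A i j - (1 : Matrix (Fin 2) (Fin 2) k) i j)
        ≤ WithZero.exp (-(n : ℤ))) →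
      (∀ i j, Valued.v (B i j - (1 : Matrix (Fin 2) (Fin 2) k) i j)
        ≤ WithZero.exp (-(n : ℤ))) →
      (∀ i j, Valued.v (B i j) ≤ 1) →
      ∀ i j, Valued.v ((A * B) i j - (1 : Matrix (Fin 2) (Fin 2) k) i j)
        ≤ WithZero.exp (-(n : ℤ)) := by
    intro A B hA hB hB1 i j
    have e : (A * B) i j - (1 : Matrix (Fin 2) (Fin 2) k) i j
        = ((A i 0 - (1 : Matrix (Fin 2) (Fin 2) k) i 0) * B 0 j
          + (A i 1 - (1 : Matrix (Fin 2) (Fin 2) k) i 1) * B 1 j)
          + (B i j - (1 : Matrix (Fin 2) (Fin 2) k) i j) := by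
      have h1B : (1 : Matrix (Fin 2) (Fin 2) k) i 0 * B 0 j
          + (1 : Matrix (Fin 2) (Fin 2) k) i 1 * B 1 j = B i j := by
        have := congrFun (congrFun (Matrix.one_mul B) i) j
        rwa [Matrix.mul_apply, Fin.sum_univ_two] at this
      rw [Matrix.mul_apply, Fin.sum_univ_two]
      linear_combination h1B
    rw [e]
    refine Fermat.Agent.LT.T6.H125.v_add_le125 (Fermat.Agent.LT.T6.H125.v_add_le125 ?_ ?_) (hB i j)
    · have := Fermat.Agent.LT.T6.H125.v_mul_le125 (hA i 0) (hB1 0 j)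
      rwa [mul_one] at this
    · have := Fermat.Agent.LT.T6.H125.v_mul_le125 (hA i 1) (hB1 1 j)
      rwa [mul_one] at this
  intro i j
  constructor
  · rw [Units.val_mul]
    exact key _ _ (fun i j => (ha i j).1) (fun i j => (hb i j).1)
      (fun i j => Fermat.Agent.LT.T6.H125.inU_entry125 hb i j) i j
  · rw [mul_inv_rev, Units.val_mul]
    exact key _ _ (fun i j => (hb i j).2) (fun i j => (ha i j).2)
      (fun i j => Fermat.Agent.LT.T6.H125.inU_inv_entry125 ha i j) i j

end LocalGroup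

/-! ## 3. Representatives of `I / U(n)` -/

section Reps

variable {F : Type} [Field F] [NumberField F]

/-- A system of representatives of `I / U(n)`. -/
theorem exists_iwReps321 (w : HeightOneSpectrum (𝓞 F)) (n : ℕ) :
    ∃ R : Finset (GL (Fin 2) (w.adicCompletion F)),
      (∀ r ∈ R, IwL468 w r) ∧
      (∀ h ∈ R, ∀ h' ∈ R, (∃ u, T6.InU n u ∧ h' = h * u) → h = h') ∧
      (∀ x, IwL468 w x → ∃ r ∈ R, ∃ u, T6.InU n u ∧ x = r * u) ∧ R.Nonempty := by
  classical
  obtain ⟨F₀, hF₀⟩ := (isIwReg_iwFn409 (w := w) n).2.2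
  have hex : ∀ x : GL (Fin 2) (w.adicCompletion F), ∃ y : GL (Fin 2) (w.adicCompletion F),
      (∃ u, T6.InU n u ∧ IwL468 w (x * u)) → (IwL468 w y ∧ ∃ u, T6.InU n u ∧ y = x * u) := by
    intro x
    by_cases h : ∃ u, T6.InU n u ∧ IwL468 w (x * u)
    · obtain ⟨u, hu, hI⟩ := h
      exact ⟨x * u, fun _ => ⟨hI, u, hu, rfl⟩⟩
    · exact ⟨x, fun h' => absurd h' h⟩
  choose g hg using hex
  obtain ⟨R, hRF, hd, hc⟩ := exists_reps321 (T6.InU n) (inU_one321 n) (fun a => inU_inv321)
    ((F₀.filter (fun x => ∃ u, T6.InU n u ∧ IwL468 w (x * u))).image g)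
  have hR1 : ∀ r ∈ R, IwL468 w r := by
    intro r hr
    obtain ⟨x, hx, rfl⟩ := Finset.mem_image.mp (hRF hr)
    exact (hg x (Finset.mem_filter.mp hx).2).1
  have hR3 : ∀ x, IwL468 w x → ∃ r ∈ R, ∃ u, T6.InU n u ∧ x = r * u := by
    intro x hx
    have hne : (iwFn893 : GL (Fin 2) (w.adicCompletion F) → ℂ) x ≠ 0 := by
      show (if InIw893 x then (1 : ℂ) else 0) ≠ 0
      rw [if_pos (show InIw893 x from hx)]
      exact one_ne_zero
    obtain ⟨x₀, hx₀, u, hu, e⟩ := hF₀ x hne
    have hx₀' : ∃ u, T6.InU n u ∧ IwL468 w (x₀ * u) := ⟨u, hu, e ▸ hx⟩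
    obtain ⟨hgI, u', hu', e'⟩ := hg x₀ hx₀'
    have hmem : g x₀ ∈ (F₀.filter (fun x => ∃ u, T6.InU n u ∧ IwL468 w (x * u))).image g :=
      Finset.mem_image_of_mem _ (Finset.mem_filter.mpr ⟨hx₀, hx₀'⟩)
    obtain ⟨r, hr, u'', hu'', e''⟩ := hc _ hmem
    refine ⟨r, hr, u'' * (u'⁻¹ * u), inU_mul321 hu'' (inU_mul321 (inU_inv321 hu') hu), ?_⟩
    rw [e, ← mul_assoc, ← mul_assoc, ← e'', e', mul_inv_cancel_right]
  refine ⟨R, hR1, hd, hR3, ?_⟩
  obtain ⟨r, hr, -⟩ := hR3 1 IwL468.one
  exact ⟨r, hr⟩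

end Reps

/-! ## 4. Transport along a valuation preserving isomorphism of completions -/

section Transport

variable {F F' : Type} [Field F] [NumberField F] [Field F'] [NumberField F']
variable {v : HeightOneSpectrum (𝓞 F)} {w : HeightOneSpectrum (𝓞 F')}
variable (e : v.adicCompletion F ≃+* w.adicCompletion F')

theorem val_map_entry321 (he : ∀ x : v.adicCompletion F, Valued.v (e x) = Valued.v x)
    (y : GL (Fin 2) (v.adicCompletion F)) (i j : Fin 2) :
    Valued.v (((Matrix.GeneralLinearGroup.map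
        (e : v.adicCompletion F →+* w.adicCompletion F') y : GL (Fin 2) (w.adicCompletion F')) :
        Matrix (Fin 2) (Fin 2) (w.adicCompletion F')) i j)
      = Valued.v ((y : Matrix (Fin 2) (Fin 2) (v.adicCompletion F)) i j) := by
  rw [Matrix.GeneralLinearGroup.map_apply]
  exact he _

theorem glMap_symm321 (y : GL (Fin 2) (w.adicCompletion F')) :
    Matrix.GeneralLinearGroup.map (e : v.adicCompletion F →+* w.adicCompletion F')
      (Matrix.GeneralLinearGroup.map
        (e.symm : w.adicCompletion F' →+* v.adicCompletion F) y) = y := by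
  apply Units.ext
  refine Matrix.ext fun i j => ?_
  rw [Matrix.GeneralLinearGroup.map_apply, Matrix.GeneralLinearGroup.map_apply]
  exact e.apply_symm_apply _

theorem val_symm321 (he : ∀ x : v.adicCompletion F, Valued.v (e x) = Valued.v x)
    (x : w.adicCompletion F') : Valued.v (e.symm x) = Valued.v x := by
  rw [← he (e.symm x), e.apply_symm_apply]

/-- The Iwahori subgroups correspond. -/
theorem iwL_map321 (he : ∀ x : v.adicCompletion F, Valued.v (e x) = Valued.v x)
    (x : GL (Fin 2) (v.adicCompletion F)) :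
    IwL468 w (Matrix.GeneralLinearGroup.map
      (e : v.adicCompletion F →+* w.adicCompletion F') x) ↔ IwL468 v x := by
  constructor
  · rintro ⟨a, b, c⟩
    refine ⟨fun i j => ?_, fun i j => ?_, ?_⟩
    · rw [← val_map_entry321 e he x i j]
      exact a i j
    · rw [← val_map_entry321 e he x⁻¹ i j, map_inv]
      exact b i j
    · rw [← val_map_entry321 e he x 1 0]
      exact c
  · rintro ⟨a, b, c⟩
    refine ⟨fun i j => ?_, fun i j => ?_, ?_⟩
    · rw [val_map_entry321 e he x i j]
      exact a i j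
    · rw [← map_inv, val_map_entry321 e he x⁻¹ i j]
      exact b i j
    · rw [val_map_entry321 e he x 1 0]
      exact c

/-- The standard shapes correspond. -/
theorem stdL_map321 (he : ∀ x : v.adicCompletion F, Valued.v (e x) = Valued.v x)
    {M : GL (Fin 2) (v.adicCompletion F)} (hM : StdL468 v M) :
    StdL468 w (Matrix.GeneralLinearGroup.map
      (e : v.adicCompletion F →+* w.adicCompletion F') M) := by
  obtain ⟨m1, m00, m10, m11, mdet⟩ := hM
  refine ⟨fun i j => ?_, ?_, ?_, ?_, ?_⟩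
  · rw [val_map_entry321 e he M i j]
    exact m1 i j
  · rw [val_map_entry321 e he M 0 0]
    exact m00
  · rw [val_map_entry321 e he M 1 0]
    exact m10
  · rw [val_map_entry321 e he M 1 1]
    exact m11
  · have hdet : ((Matrix.GeneralLinearGroup.map
        (e : v.adicCompletion F →+* w.adicCompletion F') M : GL (Fin 2) (w.adicCompletion F')) :
        Matrix (Fin 2) (Fin 2) (w.adicCompletion F')).det
        = e (M : Matrix (Fin 2) (Fin 2) (v.adicCompletion F)).det := by
      rw [Matrix.det_fin_two, Matrix.det_fin_two, Matrix.GeneralLinearGroup.map_apply,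
        Matrix.GeneralLinearGroup.map_apply, Matrix.GeneralLinearGroup.map_apply,
        Matrix.GeneralLinearGroup.map_apply, map_sub, map_mul, map_mul]
      rfl
    rw [hdet, he]
    exact mdet

/-- **Matching of two coset systems.** -/
theorem exists_match321 (he : ∀ x : v.adicCompletion F, Valued.v (e x) = Valued.v x)
    {H : Finset (G F)} {H' : Finset (G F')} (hH : IsIwCosetSystem v H)
    (hH' : IsIwCosetSystem w H') :
    ∃ σ : G F' → G F,
      (∀ h' ∈ H', σ h' ∈ H ∧
        IwL468 w ((Matrix.GeneralLinearGroup.map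
          (e : v.adicCompletion F →+* w.adicCompletion F') (finGL305 v (σ h')))⁻¹
            * finGL305 w h')) ∧
      Set.InjOn σ (H' : Set (G F')) := by
  classical
  have hex : ∀ h' : G F', ∃ h : G F, h' ∈ H' → h ∈ H ∧
      IwL468 w ((Matrix.GeneralLinearGroup.map
        (e : v.adicCompletion F →+* w.adicCompletion F') (finGL305 v h))⁻¹
          * finGL305 w h') := by
    intro h'
    by_cases hh : h' ∈ H'
    · have hstd : StdL468 v (Matrix.GeneralLinearGroup.map
          (e.symm : w.adicCompletion F' →+* v.adicCompletion F) (finGL305 w h')) :=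
        stdL_map321 e.symm (val_symm321 e he) (stdL_of_sys409 hH' hh)
      obtain ⟨h, hhH, hI⟩ := iw_complete_loc409 hH hstd
      refine ⟨h, fun _ => ⟨hhH, ?_⟩⟩
      have h2 := (iwL_map321 e he _).2 hI
      rw [map_mul, map_inv, glMap_symm321] at h2
      exact h2
    · exact ⟨1, fun h0 => absurd h0 hh⟩
  choose σ hσ using hex
  refine ⟨σ, hσ, ?_⟩
  intro a ha b hb hab
  by_contra hcon
  have h1 := (hσ a ha).2
  have h2 := (hσ b hb).2
  rw [← hab] at h2
  have h3 : IwL468 w ((finGL305 w a)⁻¹ * finGL305 w b) := by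
    have := h1.inv.mul h2
    have e' : ((Matrix.GeneralLinearGroup.map
          (e : v.adicCompletion F →+* w.adicCompletion F') (finGL305 v (σ a)))⁻¹
            * finGL305 w a)⁻¹
        * ((Matrix.GeneralLinearGroup.map
          (e : v.adicCompletion F →+* w.adicCompletion F') (finGL305 v (σ a)))⁻¹
            * finGL305 w b)
        = (finGL305 w a)⁻¹ * finGL305 w b := by group
    rwa [e'] at this
  refine hH'.2.2 a ha b hb hcon ?_
  rw [inIwahori_iff468, map_mul, map_inv]
  exact h3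

theorem card_le321 (he : ∀ x : v.adicCompletion F, Valued.v (e x) = Valued.v x)
    {H : Finset (G F)} {H' : Finset (G F')} (hH : IsIwCosetSystem v H)
    (hH' : IsIwCosetSystem w H') : H'.card ≤ H.card := by
  obtain ⟨σ, hσ, hinj⟩ := exists_match321 e he hH hH'
  exact Finset.card_le_card_of_injOn σ (fun h' hh' => (hσ h' hh').1) hinj

theorem card_eq321 (he : ∀ x : v.adicCompletion F, Valued.v (e x) = Valued.v x)
    {H : Finset (G F)} {H' : Finset (G F')} (hH : IsIwCosetSystem v H)
    (hH' : IsIwCosetSystem w H') : H'.card = H.card :=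
  le_antisymm (card_le321 e he hH hH') (card_le321 e.symm (val_symm321 e he) hH' hH)

/-- The sums of the translates of a left `I`-invariant function over two systems agree. -/
theorem sum_match321 (he : ∀ x : v.adicCompletion F, Valued.v (e x) = Valued.v x)
    {H : Finset (G F)} {H' : Finset (G F')} (hH : IsIwCosetSystem v H)
    (hH' : IsIwCosetSystem w H') (ψ : GL (Fin 2) (w.adicCompletion F') → ℂ)
    (hψ : ∀ i y : GL (Fin 2) (w.adicCompletion F'), IwL468 w i → ψ (i * y) = ψ y)
    (y : GL (Fin 2) (w.adicCompletion F')) :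
    ∑ h' ∈ H', ψ ((finGL305 w h')⁻¹ * y)
      = ∑ h ∈ H, ψ ((Matrix.GeneralLinearGroup.map
          (e : v.adicCompletion F →+* w.adicCompletion F') (finGL305 v h))⁻¹ * y) := by
  classical
  obtain ⟨σ, hσ, hinj⟩ := exists_match321 e he hH hH'
  have hval : ∀ h' ∈ H', ψ ((finGL305 w h')⁻¹ * y)
      = ψ ((Matrix.GeneralLinearGroup.map
          (e : v.adicCompletion F →+* w.adicCompletion F') (finGL305 v (σ h')))⁻¹ * y) := by
    intro h' hh'
    have hI := (hσ h' hh').2
    have e1 : (finGL305 w h')⁻¹ * y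
        = ((Matrix.GeneralLinearGroup.map
            (e : v.adicCompletion F →+* w.adicCompletion F') (finGL305 v (σ h')))⁻¹
              * finGL305 w h')⁻¹
          * ((Matrix.GeneralLinearGroup.map
            (e : v.adicCompletion F →+* w.adicCompletion F') (finGL305 v (σ h')))⁻¹ * y) := by
      group
    rw [e1]
    exact hψ _ _ hI.inv
  have himg : H'.image σ = H := by
    refine Finset.eq_of_subset_of_card_le ?_ ?_
    · intro x hx
      obtain ⟨h, hh, rfl⟩ := Finset.mem_image.mp hx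
      exact (hσ h hh).1
    · rw [Finset.card_image_of_injOn hinj, card_eq321 e he hH hH']
  calc ∑ h' ∈ H', ψ ((finGL305 w h')⁻¹ * y)
      = ∑ h' ∈ H', ψ ((Matrix.GeneralLinearGroup.map
          (e : v.adicCompletion F →+* w.adicCompletion F') (finGL305 v (σ h')))⁻¹ * y) :=
        Finset.sum_congr rfl hval
    _ = ∑ h ∈ H'.image σ, ψ ((Matrix.GeneralLinearGroup.map
          (e : v.adicCompletion F →+* w.adicCompletion F') (finGL305 v h))⁻¹ * y) :=
        (Finset.sum_image (f := fun h => ψ ((Matrix.GeneralLinearGroup.map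
          (e : v.adicCompletion F →+* w.adicCompletion F') (finGL305 v h))⁻¹ * y)) hinj).symm
    _ = ∑ h ∈ H, ψ ((Matrix.GeneralLinearGroup.map
          (e : v.adicCompletion F →+* w.adicCompletion F') (finGL305 v h))⁻¹ * y) := by
        rw [himg]

/-- The iterated local Iwahori operators correspond. -/
theorem iterate_map321 (he : ∀ x : v.adicCompletion F, Valued.v (e x) = Valued.v x)
    {H : Finset (G F)} {H' : Finset (G F')} (hH : IsIwCosetSystem v H)
    (hH' : IsIwCosetSystem w H') (j : ℕ) (y : GL (Fin 2) (v.adicCompletion F)) :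
    ((iwLoc51 w H')^[j] iwFn893) (Matrix.GeneralLinearGroup.map
        (e : v.adicCompletion F →+* w.adicCompletion F') y)
      = ((iwLoc51 v H)^[j] iwFn893) y := by
  classical
  induction j generalizing y with
  | zero =>
    show (if InIw893 (Matrix.GeneralLinearGroup.map
        (e : v.adicCompletion F →+* w.adicCompletion F') y) then (1 : ℂ) else 0)
      = if InIw893 y then (1 : ℂ) else 0
    exact if_congr (iwL_map321 e he y) rfl rfl
  | succ j ih =>
    rw [Function.iterate_succ_apply', Function.iterate_succ_apply']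
    show _ * ∑ h' ∈ H', ((iwLoc51 w H')^[j] iwFn893) ((finGL305 w h')⁻¹
        * Matrix.GeneralLinearGroup.map (e : v.adicCompletion F →+* w.adicCompletion F') y)
      = _ * ∑ h ∈ H, ((iwLoc51 v H)^[j] iwFn893) ((finGL305 v h)⁻¹ * y)
    rw [sum_match321 e he hH hH' _ (isIwReg_iterate409 hH' (isIwReg_iwFn409 0) j).1]
    have hN : Ideal.absNorm w.asIdeal = Ideal.absNorm v.asIdeal := by
      rw [← hH'.1, ← hH.1, card_eq321 e he hH hH']
    rw [hN]
    congr 1
    refine Finset.sum_congr rfl fun h _ => ?_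
    rw [← map_inv, ← map_mul]
    exact ih _

theorem iwL_zpow321 {x : GL (Fin 2) (w.adicCompletion F')} (hx : IwL468 w x) (k : ℤ) :
    IwL468 w (x ^ k) := by
  have hn : ∀ n : ℕ, IwL468 w (x ^ n) := by
    intro n
    induction n with
    | zero =>
      rw [pow_zero]
      exact IwL468.one
    | succ n ih =>
      rw [pow_succ]
      exact ih.mul hx
  cases k with
  | ofNat n =>
    rw [Int.ofNat_eq_natCast, zpow_natCast]
    exact hn n
  | negSucc n =>
    rw [zpow_negSucc]
    exact (hn (n + 1)).inv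

/-- The entries of the quotient of two scalar matrices of the same valuation. -/
theorem scalar_quot_entry321 {A B : GL (Fin 2) (w.adicCompletion F')}
    {a b : w.adicCompletion F'}
    (hA : (A : Matrix (Fin 2) (Fin 2) (w.adicCompletion F')) = Matrix.diagonal (fun _ => a))
    (hB : (B : Matrix (Fin 2) (Fin 2) (w.adicCompletion F')) = Matrix.diagonal (fun _ => b))
    (hab : Valued.v a = Valued.v b) (ha : Valued.v a ≠ 0) (i j : Fin 2) :
    Valued.v (((A⁻¹ * B : GL (Fin 2) (w.adicCompletion F')) :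
        Matrix (Fin 2) (Fin 2) (w.adicCompletion F')) i j) ≤ 1 ∧
      (i ≠ j → ((A⁻¹ * B : GL (Fin 2) (w.adicCompletion F')) :
        Matrix (Fin 2) (Fin 2) (w.adicCompletion F')) i j = 0) := by
  have ha0 : a ≠ 0 := fun h => ha (by rw [h, map_zero])
  have hX : (A : Matrix (Fin 2) (Fin 2) (w.adicCompletion F'))
      * ((A⁻¹ * B : GL (Fin 2) (w.adicCompletion F')) :
        Matrix (Fin 2) (Fin 2) (w.adicCompletion F'))
      = (B : Matrix (Fin 2) (Fin 2) (w.adicCompletion F')) := by
    rw [← Units.val_mul, mul_inv_cancel_left]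
  have hij : a * ((A⁻¹ * B : GL (Fin 2) (w.adicCompletion F')) :
        Matrix (Fin 2) (Fin 2) (w.adicCompletion F')) i j
      = (Matrix.diagonal (fun _ => b) :
        Matrix (Fin 2) (Fin 2) (w.adicCompletion F')) i j := by
    have := congrFun (congrFun hX i) j
    rw [hA, Matrix.diagonal_mul, hB] at this
    exact this
  have hne : i ≠ j → ((A⁻¹ * B : GL (Fin 2) (w.adicCompletion F')) :
        Matrix (Fin 2) (Fin 2) (w.adicCompletion F')) i j = 0 := by
    intro h
    rw [Matrix.diagonal_apply_ne _ h] at hij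
    exact (mul_eq_zero.mp hij).resolve_left ha0
  refine ⟨?_, hne⟩
  by_cases h : i = j
  · subst h
    rw [Matrix.diagonal_apply_eq] at hij
    have h1 : Valued.v a * Valued.v (((A⁻¹ * B : GL (Fin 2) (w.adicCompletion F')) :
        Matrix (Fin 2) (Fin 2) (w.adicCompletion F')) i i) = Valued.v a * 1 := by
      rw [← map_mul, hij, mul_one, hab]
    exact (mul_left_cancel₀ ha h1).le
  · rw [hne h, map_zero]
    exact zero_le

theorem scalar_quot_iw321 {A B : GL (Fin 2) (w.adicCompletion F')}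
    {a b : w.adicCompletion F'}
    (hA : (A : Matrix (Fin 2) (Fin 2) (w.adicCompletion F')) = Matrix.diagonal (fun _ => a))
    (hB : (B : Matrix (Fin 2) (Fin 2) (w.adicCompletion F')) = Matrix.diagonal (fun _ => b))
    (hab : Valued.v a = Valued.v b) (ha : Valued.v a ≠ 0) : IwL468 w (A⁻¹ * B) := by
  refine ⟨fun i j => (scalar_quot_entry321 hA hB hab ha i j).1, fun i j => ?_, ?_⟩
  · rw [mul_inv_rev, inv_inv]
    exact (scalar_quot_entry321 hB hA hab.symm (hab ▸ ha) i j).1
  · rw [(scalar_quot_entry321 hA hB hab ha 1 0).2 (by decide), map_zero]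
    exact zero_lt_one

/-- **The local regularised Iwahori functions correspond.** -/
theorem regLoc_map321 (he : ∀ x : v.adicCompletion F, Valued.v (e x) = Valued.v x)
    {H : Finset (G F)} {H' : Finset (G F')} (hH : IsIwCosetSystem v H)
    (hH' : IsIwCosetSystem w H') {z : G F} {z' : G F'} (hz : IsScalarUniformizerAt v z)
    (hz' : IsScalarUniformizerAt w z') (k : ℤ) (j : ℕ)
    (y : GL (Fin 2) (v.adicCompletion F)) :
    regLoc51 w z' H' k j iwFn893 (Matrix.GeneralLinearGroup.map
        (e : v.adicCompletion F →+* w.adicCompletion F') y)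
      = regLoc51 v z H k j iwFn893 y := by
  show ((iwLoc51 w H')^[j] iwFn893) ((finGL305 w z' ^ k)⁻¹ * Matrix.GeneralLinearGroup.map
        (e : v.adicCompletion F →+* w.adicCompletion F') y)
      = ((iwLoc51 v H)^[j] iwFn893) ((finGL305 v z ^ k)⁻¹ * y)
  rw [← iterate_map321 e he hH hH' j]
  have hleft := (isIwReg_iterate409 hH' (isIwReg_iwFn409 (w := w) 0) j).1
  obtain ⟨_, c, hc, hzc⟩ := hz
  obtain ⟨_, c', hc', hzc'⟩ := id hz'
  have hm : ((finGL305 v z : GL (Fin 2) (v.adicCompletion F)) :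
      Matrix (Fin 2) (Fin 2) (v.adicCompletion F)) = Matrix.diagonal (fun _ => c) := hzc
  have hm' : ((finGL305 w z' : GL (Fin 2) (w.adicCompletion F')) :
      Matrix (Fin 2) (Fin 2) (w.adicCompletion F')) = Matrix.diagonal (fun _ => c') := hzc'
  have hZ : ((Matrix.GeneralLinearGroup.map
      (e : v.adicCompletion F →+* w.adicCompletion F') (finGL305 v z) :
        GL (Fin 2) (w.adicCompletion F')) : Matrix (Fin 2) (Fin 2) (w.adicCompletion F'))
      = Matrix.diagonal (fun _ => e c) := by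
    refine Matrix.ext fun a b => ?_
    rw [Matrix.GeneralLinearGroup.map_apply, hm]
    by_cases hab : a = b
    · subst hab
      rw [Matrix.diagonal_apply_eq, Matrix.diagonal_apply_eq]
      rfl
    · rw [Matrix.diagonal_apply_ne _ hab, Matrix.diagonal_apply_ne _ hab, map_zero]
  have hd : IwL468 w ((Matrix.GeneralLinearGroup.map
      (e : v.adicCompletion F →+* w.adicCompletion F') (finGL305 v z))⁻¹ * finGL305 w z') :=
    scalar_quot_iw321 hZ hm' (by rw [he, hc, hc']) (by rw [he, hc]; exact WithZero.exp_ne_zero)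
  have hcomm : Commute (Matrix.GeneralLinearGroup.map
      (e : v.adicCompletion F →+* w.adicCompletion F') (finGL305 v z))⁻¹ (finGL305 w z') := by
    have h1 : Commute (finGL305 w z') (Matrix.GeneralLinearGroup.map
      (e : v.adicCompletion F →+* w.adicCompletion F') (finGL305 v z)) :=
      scalarUnif_central409 hz' _
    exact h1.symm.inv_left
  have key : (finGL305 w z' ^ k)⁻¹ * Matrix.GeneralLinearGroup.map
        (e : v.adicCompletion F →+* w.adicCompletion F') y
      = (((Matrix.GeneralLinearGroup.map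
          (e : v.adicCompletion F →+* w.adicCompletion F') (finGL305 v z))⁻¹
            * finGL305 w z') ^ k)⁻¹
        * Matrix.GeneralLinearGroup.map
          (e : v.adicCompletion F →+* w.adicCompletion F') ((finGL305 v z ^ k)⁻¹ * y) := by
    rw [map_mul, map_inv, map_zpow, hcomm.mul_zpow, inv_zpow]
    generalize (Matrix.GeneralLinearGroup.map
      (e : v.adicCompletion F →+* w.adicCompletion F') (finGL305 v z)) ^ k = P
    generalize finGL305 w z' ^ k = Q
    group
  rw [key]
  exact hleft _ _ (iwL_zpow321 hd k).inv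

end Transport

/-! ## 5. The convolution with the Iwahori function -/

section Conv

variable {F : Type} [Field F] [NumberField F] {u : HeightOneSpectrum (𝓞 F)}

/-- For `χ` right `I`-invariant: `χ * 1_I = [I : U(n)] χ` (`vol U(n) = 1`). -/
theorem isConv_iw321 {n : ℕ} {R : Finset (GL (Fin 2) (u.adicCompletion F))}
    (hR1 : ∀ r ∈ R, IwL468 u r)
    (hR2 : ∀ h ∈ R, ∀ h' ∈ R, (∃ x, T6.InU n x ∧ h' = h * x) → h = h')
    (hR3 : ∀ x, IwL468 u x → ∃ r ∈ R, ∃ y, T6.InU n y ∧ x = r * y)
    (χ : GL (Fin 2) (u.adicCompletion F) → ℂ)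
    (hχ : ∀ i y : GL (Fin 2) (u.adicCompletion F), IwL468 u i → χ (y * i) = χ y) :
    T6.IsConv (T6.InU n) χ iwFn893 (fun g => (R.card : ℂ) * χ g) := by
  classical
  intro g
  refine ⟨R.image (fun r => g * r), ?_, ?_, ?_⟩
  · intro h hh h' hh' huu
    obtain ⟨r, hr, rfl⟩ := Finset.mem_image.mp hh
    obtain ⟨r', hr', rfl⟩ := Finset.mem_image.mp hh'
    obtain ⟨x, hx, e⟩ := huu
    have hrr : r = r' := hR2 r hr r' hr' ⟨x, hx, by
      rw [mul_assoc] at e
      exact mul_left_cancel e⟩
    rw [hrr]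
  · intro h hne
    have hI : InIw893 (h⁻¹ * g) := by
      by_contra hcon
      apply hne
      show χ h * (if InIw893 (h⁻¹ * g) then (1 : ℂ) else 0) = 0
      rw [if_neg hcon, mul_zero]
    have hI' : IwL468 u (g⁻¹ * h) := by
      have h1 : IwL468 u (h⁻¹ * g)⁻¹ := IwL468.inv hI
      rwa [mul_inv_rev, inv_inv] at h1
    obtain ⟨r, hr, y, hy, e⟩ := hR3 _ hI'
    refine ⟨g * r, Finset.mem_image_of_mem _ hr, y, hy, ?_⟩
    rw [mul_assoc, ← e, mul_inv_cancel_left]
  · have hinj : Set.InjOn (fun r => g * r) (R : Set (GL (Fin 2) (u.adicCompletion F))) :=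
      fun a _ b _ hab => mul_left_cancel hab
    rw [Finset.sum_image hinj]
    have hterm : ∀ r ∈ R, χ (g * r) * iwFn893 ((g * r)⁻¹ * g) = χ g := by
      intro r hr
      have h1 : (g * r)⁻¹ * g = r⁻¹ := by group
      rw [h1, hχ r g (hR1 r hr)]
      show χ g * (if InIw893 r⁻¹ then (1 : ℂ) else 0) = χ g
      rw [if_pos (show InIw893 r⁻¹ from (hR1 r hr).inv), mul_one]
    rw [Finset.sum_congr rfl hterm, Finset.sum_const, nsmul_eq_mul]

/-- The convolution product of a right `I`-invariant function with `l - 1` copies of `1_I`. -/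
theorem isConvProd_iw321 {n : ℕ} {R : Finset (GL (Fin 2) (u.adicCompletion F))}
    (hR1 : ∀ r ∈ R, IwL468 u r)
    (hR2 : ∀ h ∈ R, ∀ h' ∈ R, (∃ x, T6.InU n x ∧ h' = h * x) → h = h')
    (hR3 : ∀ x, IwL468 u x → ∃ r ∈ R, ∃ y, T6.InU n y ∧ x = r * y)
    (l : ℕ) (φ : ℕ → GL (Fin 2) (u.adicCompletion F) → ℂ)
    (hφ0 : ∀ i y : GL (Fin 2) (u.adicCompletion F), IwL468 u i → φ 0 (y * i) = φ 0 y)
    (hφ : ∀ j : ℕ, 0 < j → j < l → φ j = iwFn893) :
    T6.IsConvProd (T6.InU n) l φ (fun g => (R.card : ℂ) ^ (l - 1) * φ 0 g) := by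
  refine ⟨fun m g => (R.card : ℂ) ^ m * φ 0 g, ?_, ?_, rfl⟩
  · funext g
    show (R.card : ℂ) ^ 0 * φ 0 g = φ 0 g
    rw [pow_zero, one_mul]
  · intro m hm
    rw [hφ (m + 1) (Nat.succ_pos m) hm]
    have h1 := isConv_iw321 hR1 hR2 hR3 (fun g => (R.card : ℂ) ^ m * φ 0 g)
      (fun i y hi => by
        show (R.card : ℂ) ^ m * φ 0 (y * i) = (R.card : ℂ) ^ m * φ 0 y
        rw [hφ0 i y hi])
    have e : (fun g => (R.card : ℂ) ^ (m + 1) * φ 0 g)
        = fun g => (R.card : ℂ) * ((R.card : ℂ) ^ m * φ 0 g) := by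
      funext g
      rw [pow_succ]
      ring
    show T6.IsConv (T6.InU n) (fun g => (R.card : ℂ) ^ m * φ 0 g) iwFn893
      (fun g => (R.card : ℂ) ^ (m + 1) * φ 0 g)
    rw [e]
    exact h1

end Conv

/-! ## 6. The levels at a split place -/

section Levels

theorem lt_exp_iff321 {x : WithZero (Multiplicative ℤ)} (a : ℤ) :
    x < WithZero.exp a ↔ x ≤ WithZero.exp (a - 1) := by
  have h := WithZero.lt_mul_exp_iff_le (x := x) (y := WithZero.exp (a - 1))
    WithZero.exp_ne_zero
  rw [← WithZero.exp_add] at h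
  have h0 : a - 1 + 1 = a := by ring
  rw [h0] at h
  exact h

theorem exists_val_eq321 {F : Type} [Field F] [NumberField F] (v : HeightOneSpectrum (𝓞 F))
    (n : ℕ) : ∃ c : v.adicCompletion F, Valued.v c = WithZero.exp (-(n : ℤ)) := by
  obtain ⟨π, hπ⟩ := v.valuation_exists_uniformizer F
  refine ⟨(π : v.adicCompletion F) ^ n, ?_⟩
  rw [map_pow, HeightOneSpectrum.valuedAdicCompletion_eq_valuation', hπ, ← WithZero.exp_nsmul]
  congr 1
  simp

variable {K K' : Type} [Field K] [NumberField K] [Field K'] [NumberField K'] [Algebra K K']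

/-- **The exponents of the levels `𝔫`, `𝔫 𝒪_{K'}` agree at a split place.** -/
theorem level_eq321 (𝔫 : Ideal (𝓞 K)) (n : HeightOneSpectrum (𝓞 K') → ℕ)
    (m : HeightOneSpectrum (𝓞 K) → ℕ) (hm : IsLevelOf893 𝔫 m)
    (hn : IsLevelOf893 (upI (K' := K') 𝔫) n)
    (u : HeightOneSpectrum (𝓞 K)) (w : HeightOneSpectrum (𝓞 K'))
    (e : u.adicCompletion K ≃+* w.adicCompletion K')
    (hcompat : ∀ x : K, e (algebraMap K (u.adicCompletion K) x)
      = algebraMap K' (w.adicCompletion K') (algebraMap K K' x))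
    (he : ∀ x : u.adicCompletion K, Valued.v (e x) = Valued.v x) : n w = m u := by
  have h𝔫 : ∀ x ∈ 𝔫, Valued.v (algebraMap K (u.adicCompletion K) (algebraMap (𝓞 K) K x))
      ≤ WithZero.exp (-(m u : ℤ)) := by
    intro x hx
    exact (hm u _).1 (subset_closure ⟨x, hx, rfl⟩)
  have hval : ∀ x : 𝓞 K, Valued.v (algebraMap K' (w.adicCompletion K')
        (algebraMap (𝓞 K') K' (algebraMap (𝓞 K) (𝓞 K') x)))
      = Valued.v (algebraMap K (u.adicCompletion K) (algebraMap (𝓞 K) K x)) := by
    intro x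
    rw [← he, hcompat]
    rfl
  apply le_antisymm
  · by_contra hcon
    have hlt : ∀ x ∈ 𝔫, Valued.v (algebraMap K (u.adicCompletion K) (algebraMap (𝓞 K) K x))
        ≤ WithZero.exp (-(m u : ℤ) - 1) := by
      intro x hx
      rw [← lt_exp_iff321]
      refine lt_of_le_of_ne (h𝔫 x hx) fun heq => hcon ?_
      have hup : algebraMap (𝓞 K) (𝓞 K') x ∈ upI (K' := K') 𝔫 := Ideal.mem_map_of_mem _ hx
      have h1 := (hn w _).1 (subset_closure ⟨_, hup, rfl⟩)
      rw [hval, heq, WithZero.exp_le_exp] at h1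
      omega
    obtain ⟨c, hc⟩ := exists_val_eq321 u (m u)
    have hcl : c ∈ idealClosure 𝔫 u := (hm u c).2 hc.le
    have hsub : idealClosure 𝔫 u
        ⊆ (Fermat.Agent.LT.T2.H557.ball557 u (-(m u : ℤ) - 1) : Set (u.adicCompletion K)) := by
      refine closure_minimal ?_ (Fermat.Agent.LT.T2.H557.isClosed_ball557 u _)
      rintro _ ⟨x, hx, rfl⟩
      exact hlt x hx
    have h2 : Valued.v c ≤ WithZero.exp (-(m u : ℤ) - 1) := hsub hcl
    rw [hc, WithZero.exp_le_exp] at h2
    omega
  · have hB : ∀ y ∈ upI (K' := K') 𝔫,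
        Valued.v (algebraMap K' (w.adicCompletion K') (algebraMap (𝓞 K') K' y))
          ≤ WithZero.exp (-(m u : ℤ)) := by
      intro y hy
      refine Submodule.span_induction
        (p := fun y _ => Valued.v (algebraMap K' (w.adicCompletion K')
          (algebraMap (𝓞 K') K' y)) ≤ WithZero.exp (-(m u : ℤ))) ?_ ?_ ?_ ?_ hy
      · rintro _ ⟨x, hx, rfl⟩
        exact (hval x).le.trans (h𝔫 x hx)
      · rw [map_zero, map_zero, map_zero]
        exact zero_le
      · intro a b _ _ ha hb
        rw [map_add, map_add]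
        exact (Valued.v.map_add _ _).trans (max_le ha hb)
      · intro a b _ hb
        rw [smul_eq_mul, map_mul, map_mul, map_mul]
        have ha1 : Valued.v (algebraMap K' (w.adicCompletion K') (algebraMap (𝓞 K') K' a))
            ≤ 1 := by
          rw [Fermat.Agent.LT.T2.H557.val_int557]
          exact w.intValuation_le_one a
        calc Valued.v (algebraMap K' (w.adicCompletion K') (algebraMap (𝓞 K') K' a))
              * Valued.v (algebraMap K' (w.adicCompletion K') (algebraMap (𝓞 K') K' b))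
            ≤ 1 * WithZero.exp (-(m u : ℤ)) := mul_le_mul' ha1 hb
          _ = WithZero.exp (-(m u : ℤ)) := one_mul _
    obtain ⟨c, hc⟩ := exists_val_eq321 w (n w)
    have hcl : c ∈ idealClosure (upI (K' := K') 𝔫) w := (hn w c).2 hc.le
    have hsub : idealClosure (upI (K' := K') 𝔫) w
        ⊆ (Fermat.Agent.LT.T2.H557.ball557 w (-(m u : ℤ)) : Set (w.adicCompletion K')) := by
      refine closure_minimal ?_ (Fermat.Agent.LT.T2.H557.isClosed_ball557 w _)
      rintro _ ⟨y, hy, rfl⟩
      exact hB y hy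
    have h2 : Valued.v c ≤ WithZero.exp (-(m u : ℤ)) := hsub hcl
    rw [hc, WithZero.exp_le_exp] at h2
    omega

end Levels

/-! ## 7. The orbit is periodic -/

section Orbit

variable {K' : Type} [Field K'] [NumberField K']

theorem placeRel_mem321 (s : T5.AdelicAut K') {w w' : HeightOneSpectrum (𝓞 K')}
    (h : T5.PlaceRel s w w') (x : 𝓞 K') :
    x ∈ w.asIdeal ↔ NumberField.RingOfIntegers.mapRingEquiv s.σ x ∈ w'.asIdeal := by
  have h' : w'.asIdeal
      = Ideal.map (NumberField.RingOfIntegers.mapRingEquiv s.σ) w.asIdeal := h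
  rw [h']
  constructor
  · intro hx
    exact Ideal.mem_map_of_mem _ hx
  · intro hx
    obtain ⟨y, hy, e⟩ :=
      (Ideal.mem_map_of_equiv (NumberField.RingOfIntegers.mapRingEquiv s.σ) _).1 hx
    have hyx : y = x := (NumberField.RingOfIntegers.mapRingEquiv s.σ).injective e
    rwa [← hyx]

theorem iterate_coe321 (s : T5.AdelicAut K') (n : ℕ) (x : 𝓞 K') :
    (((NumberField.RingOfIntegers.mapRingEquiv s.σ)^[n] x : 𝓞 K') : K')
      = (s.σ ^ n) (x : K') := by
  induction n with
  | zero => rfl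
  | succ n ih =>
    rw [Function.iterate_succ_apply', NumberField.RingOfIntegers.mapRingEquiv_apply, ih,
      pow_succ']
    rfl

theorem orbit_period321 (s : T5.AdelicAut K') (l : ℕ) (hpow : ∀ x : K', (s.σ ^ l) x = x)
    (o : ℕ → HeightOneSpectrum (𝓞 K')) (horb : ∀ j : ℕ, T5.PlaceRel s (o j) (o (j + 1)))
    (j : ℕ) : o (j + l) = o j := by
  have hit : ∀ (n j : ℕ) (x : 𝓞 K'), x ∈ (o j).asIdeal
      ↔ ((NumberField.RingOfIntegers.mapRingEquiv s.σ)^[n] x) ∈ (o (j + n)).asIdeal := by
    intro n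
    induction n with
    | zero =>
      intro j x
      rfl
    | succ n ih =>
      intro j x
      rw [Function.iterate_succ_apply', ih j x, placeRel_mem321 s (horb (j + n))]
      rfl
  have hfix : ∀ x : 𝓞 K', (NumberField.RingOfIntegers.mapRingEquiv s.σ)^[l] x = x := by
    intro x
    apply NumberField.RingOfIntegers.ext
    rw [iterate_coe321, hpow]
  apply HeightOneSpectrum.ext
  ext x
  rw [hit l j x, hfix]

theorem orbit_period_mul321 (s : T5.AdelicAut K') (l : ℕ) (hpow : ∀ x : K', (s.σ ^ l) x = x)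
    (o : ℕ → HeightOneSpectrum (𝓞 K')) (horb : ∀ j : ℕ, T5.PlaceRel s (o j) (o (j + 1)))
    (j n : ℕ) : o (j + l * n) = o j := by
  induction n with
  | zero => rw [Nat.mul_zero, Nat.add_zero]
  | succ n ih => rw [Nat.mul_succ, ← Nat.add_assoc, orbit_period321 s l hpow o horb, ih]

theorem nat_aux1_321 (j ℓ : ℕ) (h0 : 0 < j) (hl : j < ℓ) :
    j * (ℓ - 1) = (ℓ - j) + ℓ * (j - 1) := by
  obtain ⟨p, rfl⟩ : ∃ p, j = p + 1 := ⟨j - 1, by omega⟩
  obtain ⟨q, rfl⟩ : ∃ q, ℓ = p + 1 + q + 1 := ⟨ℓ - (p + 1) - 1, by omega⟩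
  have e1 : p + 1 + q + 1 - 1 = p + 1 + q := by omega
  have e2 : p + 1 + q + 1 - (p + 1) = q + 1 := by omega
  have e3 : p + 1 - 1 = p := by omega
  rw [e1, e2, e3]
  ring

theorem nat_aux2_321 (j ℓ : ℕ) (hℓ : 0 < ℓ) :
    (j + 1) * (ℓ - 1) + 1 = j * (ℓ - 1) + ℓ * 1 := by
  obtain ⟨p, rfl⟩ : ∃ p, ℓ = p + 1 := ⟨ℓ - 1, by omega⟩
  have e1 : p + 1 - 1 = p := by omega
  rw [e1]
  ring

end Orbit

/-! ## 8. The leaf -/

section Leaf

variable (K K' : Type) [Field K] [NumberField K] [Field K'] [NumberField K'] [Algebra K K']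

/-- **LEAF P.L5 = SPLIT-ORB of helper51's cut of `ProdMtCb`: PROVED.** -/
theorem splitOrbC321 : Fermat.Agent.LT.T7.P51.SplitOrbC51 K K' := by
  intro ℓ Φ B g 𝔫 μc T₀ n n₀ m hctx
  obtain ⟨R, hR1, hR2, hR3, hRne⟩ := exists_iwReps321 B.u (m B.u)
  refine ⟨(R.card : ℂ) ^ (ℓ - 1),
    pow_ne_zero _ (Nat.cast_ne_zero.mpr (Finset.card_ne_zero.mpr hRne)), ?_⟩
  intro H' z' H z k j T φ₀ Φ' f₀ F hloc hsplit
  obtain ⟨_, hsys, _ht, hprod⟩ := hloc
  obtain ⟨T₁, T₂, φ₁, Φ₁, f₁, F₁, φ₂, Φ₂, f₂, F₂, -, -, -, -, -, -, hfu, hφ0, hφi, -, -, -⟩ :=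
    hprod
  have hdeg : B.l = ℓ := hctx.base.deg
  have hℓpos : 0 < ℓ := hctx.cyc.prime.pos
  have hper : ∀ a b : ℕ, B.o (a + ℓ * b) = B.o a := fun a b =>
    orbit_period_mul321 B.s ℓ (by rw [← hdeg]; exact hctx.base.cyc.pow_eq) B.o
      hctx.base.orbit_rel a b
  have hover : ∀ j : ℕ, PlaceOver K K' B.u (B.o (j * (ℓ - 1))) :=
    fun j => hctx.base.orbit_over _
  have hdata : ∀ j : ℕ, ∃ i : B.u.adicCompletion K ≃+* (B.o (j * (ℓ - 1))).adicCompletion K',
      (∀ x : K, i (algebraMap K (B.u.adicCompletion K) x)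
        = algebraMap K' ((B.o (j * (ℓ - 1))).adicCompletion K') (algebraMap K K' x)) ∧
      ∀ x : B.u.adicCompletion K, Valued.v (i x) = Valued.v x := by
    intro j
    obtain ⟨w₁, w₂, h1, h2, hne⟩ := hsplit
    have hex : ∃ w' : HeightOneSpectrum (𝓞 K'),
        PlaceOver K K' B.u w' ∧ w' ≠ B.o (j * (ℓ - 1)) := by
      by_cases h : w₁ = B.o (j * (ℓ - 1))
      · exact ⟨w₂, h2, fun h' => hne (h.trans h'.symm)⟩
      · exact ⟨w₁, h1, h⟩
    obtain ⟨w', hw', hne'⟩ := hex
    obtain ⟨hN, hπ⟩ := Fermat.Agent.LT.T7.H841.split_dataOF841 ℓ hctx.cyc B.u _ w'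
      (hover j) hw' hne'
    exact Fermat.Agent.LT.T6.H116.instSplitC_h116 K K' B.u _
      ((Fermat.Agent.LT.T7.H841.placeOver_iffOF841 _ _).1 (hover j)) hN hπ
  choose i hi1 hi2 using hdata
  -- the components along the enumeration
  have hG1 : ∀ (w' : HeightOneSpectrum (𝓞 K')), w' = B.o 0 →
      ∀ (e : B.u.adicCompletion K ≃+* w'.adicCompletion K'),
        (∀ x : B.u.adicCompletion K, Valued.v (e x) = Valued.v x) →
        ∀ y : GL (Fin 2) (B.u.adicCompletion K),
          φ₀ w' (Matrix.GeneralLinearGroup.map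
            (e : B.u.adicCompletion K →+* w'.adicCompletion K') y)
            = regLoc51 B.u z H k j iwFn893 y := by
    intro w' hw'
    subst hw'
    intro e he y
    rw [hφ0]
    exact regLoc_map321 e he hsys.sys hsys.sys' hsys.unif hsys.unif' k j y
  have hG2 : ∀ (w' : HeightOneSpectrum (𝓞 K')) (a : ℕ), w' = B.o a → 0 < a → a < B.l →
      ∀ (e : B.u.adicCompletion K ≃+* w'.adicCompletion K'),
        (∀ x : B.u.adicCompletion K, Valued.v (e x) = Valued.v x) →
        ∀ y : GL (Fin 2) (B.u.adicCompletion K),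
          φ₀ w' (Matrix.GeneralLinearGroup.map
            (e : B.u.adicCompletion K →+* w'.adicCompletion K') y) = iwFn893 y := by
    classical
    intro w' a hw' ha0 hal
    subst hw'
    intro e he y
    rw [hφi a ha0 hal]
    show (if InIw893 (Matrix.GeneralLinearGroup.map
        (e : B.u.adicCompletion K →+* (B.o a).adicCompletion K') y) then (1 : ℂ) else 0)
      = if InIw893 y then (1 : ℂ) else 0
    exact if_congr (iwL_map321 e he y) rfl rfl
  have hw0 : B.o (0 * (ℓ - 1)) = B.o 0 := by rw [Nat.zero_mul]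
  have hwj : ∀ j' : ℕ, 0 < j' → j' < ℓ → B.o (j' * (ℓ - 1)) = B.o (ℓ - j') := by
    intro j' h0 hl
    rw [nat_aux1_321 j' ℓ h0 hl, hper]
  refine ⟨fun j => B.o (j * (ℓ - 1)), i, hover, ?_, ?_, hi1, hi2, ?_, ?_⟩
  · intro j'
    show T5.PlaceRel B.s (B.o ((j' + 1) * (ℓ - 1))) (B.o (j' * (ℓ - 1)))
    have h1 := hctx.base.orbit_rel ((j' + 1) * (ℓ - 1))
    have h2 : B.o ((j' + 1) * (ℓ - 1) + 1) = B.o (j' * (ℓ - 1)) := by
      rw [nat_aux2_321 j' ℓ hℓpos, hper]
    rw [h2] at h1
    exact h1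
  · intro j' hj0 hjl
    have hjl' : j' < ℓ := by
      have h : j' < B.l := hjl
      rwa [hdeg] at h
    show B.o (j' * (ℓ - 1)) ≠ B.o (0 * (ℓ - 1))
    rw [hwj j' hj0 hjl', hw0]
    exact hctx.base.orbit_ne (ℓ - j') (by omega) (by omega)
  · intro j'
    exact level_eq321 𝔫 n m hctx.lev_m hctx.lev_n B.u _ (i j') (hi1 j') (hi2 j')
  · have hf : f₀ B.u = fun y => (R.card : ℂ) ^ ((B.comp 𝔫).l - 1)
        * φ₀ (B.o (0 * (ℓ - 1))) (Matrix.GeneralLinearGroup.map
          ((i 0 : B.u.adicCompletion K ≃+* _) :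
            B.u.adicCompletion K →+* (B.o (0 * (ℓ - 1))).adicCompletion K') y) := by
      rw [hfu]
      funext y
      rw [hG1 _ hw0 (i 0) (hi2 0) y]
      show (R.card : ℂ) ^ (ℓ - 1) * _ = (R.card : ℂ) ^ (B.l - 1) * _
      rw [hdeg]
    rw [hf]
    refine isConvProd_iw321 hR1 hR2 hR3 (B.comp 𝔫).l
      (fun j' y => φ₀ (B.o (j' * (ℓ - 1))) (Matrix.GeneralLinearGroup.map
        ((i j' : B.u.adicCompletion K ≃+* _) :
          B.u.adicCompletion K →+* (B.o (j' * (ℓ - 1))).adicCompletion K') y)) ?_ ?_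
    · intro i₁ y hi₁
      show φ₀ (B.o (0 * (ℓ - 1))) _ = φ₀ (B.o (0 * (ℓ - 1))) _
      rw [hG1 _ hw0 (i 0) (hi2 0), hG1 _ hw0 (i 0) (hi2 0)]
      exact (isIwReg_regLoc409 0 hsys.sys hsys.unif k j).2.1 i₁ y hi₁
    · intro j' hj0 hjl
      have hjl' : j' < ℓ := by
        have h : j' < B.l := hjl
        rwa [hdeg] at h
      funext y
      exact hG2 _ (ℓ - j') (hwj j' hj0 hjl') (by omega) (by rw [hdeg]; omega) (i j') (hi2 j') y

end Leaf

/-- VERBATIM check. -/
example (K K' : Type) [Field K] [NumberField K] [Field K'] [NumberField K'] [Algebra K K'] :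
    Fermat.Agent.LT.T7.P51.SplitOrbC51 K K' := splitOrbC321 K K'

end Fermat.Agent.LT.T7.P51.H321

end
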